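import Fermat.Agent.S15.H542.ModBSpec
import Fermat.Agent.S20.T2_helper423
import Fermat.Agent.S20.JInjective
import Fermat.Agent.S24.M7.H47Level1

/-!
# S15, piece MOD-B2 (helper215): lattices and the `j`-function

* `G_congr_h215`, `g₂_congr_h215`, `g₃_congr_h215` : the lattice invariants only depend on the
  lattice (not on the basis);
* `exists_pairOf_lattice_h215` : every lattice is `c (ℤ + ℤ τ)`, `τ ∈ ℍ`;
* `disc_ne_zero_h215` : `g₂³ - 27 g₃² ≠ 0` for every period pair;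
* `latticeJ_pairOf_h215` : `latticeJ (ℤ + ℤ τ) = E₄(τ)³ / Δ(τ)`;
* `latticeJ_scalePair_h215`, `latticeJ_congr_h215`;
* **B2** `exists_periodPair_h215` : every `(g₂, g₃)` with `g₂³ - 27 g₃² ≠ 0` comes from a lattice.

Inputs (on main): S20 `T2h423` (`g₂_pairOf`, `scalePair`), S20 `JInjective.exists_scale`,
S24 `M7.H47.jFun_surjective`.
-/

set_option autoImplicit false

noncomputable section

open UpperHalfPlane ModularForm EisensteinSeries

namespace Fermat.Agent.S15.H215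

open Fermat.Agent.S15.H542
open Fermat.Agent.S20.T2h423 (pairOf scalePair)

local notation "Δ" => ModularForm.discriminant

/-! ## Independence of the basis -/

theorem G_congr_h215 {L L' : PeriodPair} (h : L.lattice = L'.lattice) (n : ℕ) :
    L.G n = L'.G n := by
  unfold PeriodPair.G
  have h' : (L.lattice : Set ℂ) = (L'.lattice : Set ℂ) := by rw [h]
  exact tsum_congr_set_coe (fun l : ℂ => (l ^ n)⁻¹) h'

theorem g₂_congr_h215 {L L' : PeriodPair} (h : L.lattice = L'.lattice) : L.g₂ = L'.g₂ := by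
  unfold PeriodPair.g₂; rw [G_congr_h215 h]

theorem g₃_congr_h215 {L L' : PeriodPair} (h : L.lattice = L'.lattice) : L.g₃ = L'.g₃ := by
  unfold PeriodPair.g₃; rw [G_congr_h215 h]

theorem latticeJ_congr_h215 {L L' : PeriodPair} (h : L.lattice = L'.lattice) :
    latticeJ L = latticeJ L' := by
  unfold latticeJ; rw [g₂_congr_h215 h, g₃_congr_h215 h]

/-! ## Scaling -/

theorem disc_scalePair_h215 (c : ℂ) (hc : c ≠ 0) (L : PeriodPair) :
    (scalePair c hc L).g₂ ^ 3 - 27 * (scalePair c hc L).g₃ ^ 2 =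
      (c ^ 12)⁻¹ * (L.g₂ ^ 3 - 27 * L.g₃ ^ 2) := by
  rw [Fermat.Agent.S20.T2h423.g₂_scalePair, Fermat.Agent.S20.T2h423.g₃_scalePair]
  field_simp

theorem latticeJ_scalePair_h215 (c : ℂ) (hc : c ≠ 0) (L : PeriodPair) :
    latticeJ (scalePair c hc L) = latticeJ L := by
  unfold latticeJ
  rw [disc_scalePair_h215, Fermat.Agent.S20.T2h423.g₂_scalePair]
  field_simp

/-! ## The lattices `ℤ + ℤ τ` -/

theorem disc_pairOf_ne_zero_h215 (τ : ℍ) :
    (pairOf τ).g₂ ^ 3 - 27 * (pairOf τ).g₃ ^ 2 ≠ 0 := by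
  rw [Fermat.Agent.S20.T2h423.g₂_cube_sub_g₃_sq_pairOf]
  refine mul_ne_zero (pow_ne_zero _ (mul_ne_zero two_ne_zero ?_)) (discriminant_ne_zero τ)
  exact_mod_cast Real.pi_ne_zero

theorem latticeJ_pairOf_h215 (τ : ℍ) : latticeJ (pairOf τ) = E₄ τ ^ 3 / Δ τ := by
  unfold latticeJ
  rw [Fermat.Agent.S20.T2h423.g₂_cube_sub_g₃_sq_pairOf, Fermat.Agent.S20.T2h423.g₂_pairOf]
  have hπ : (Real.pi : ℂ) ≠ 0 := by exact_mod_cast Real.pi_ne_zero
  have hΔ := discriminant_ne_zero τ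
  field_simp
  ring

/-- Every lattice is homothetic to some `ℤ + ℤ τ`. -/
theorem exists_pairOf_lattice_h215 (L : PeriodPair) :
    ∃ (τ : ℍ) (c : ℂ) (hc : c ≠ 0), L.lattice = (scalePair c hc (pairOf τ)).lattice := by
  have hind := L.indep
  rw [LinearIndependent.pair_iff] at hind
  have h1 : L.ω₁ ≠ 0 := by
    intro h
    have := hind 1 0 (by simp [h])
    exact one_ne_zero this.1
  have him : (L.ω₂ / L.ω₁).im ≠ 0 := by
    intro h
    -- `ω₂ = t ω₁` with `t` real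
    have ht : L.ω₂ / L.ω₁ = (((L.ω₂ / L.ω₁).re : ℝ) : ℂ) := by
      apply Complex.ext <;> simp [h]
    have h2 : (-(L.ω₂ / L.ω₁).re) • L.ω₁ + (1 : ℝ) • L.ω₂ = 0 := by
      simp only [Complex.real_smul]
      push_cast
      rw [← ht]
      field_simp
      ring
    exact one_ne_zero (hind _ _ h2).2
  rcases lt_or_gt_of_ne him with hneg | hpos
  · -- `Im (ω₂/ω₁) < 0`: use `τ = - ω₂ / ω₁`
    have hpos' : 0 < (-(L.ω₂ / L.ω₁)).im := by simpa using hneg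
    refine ⟨UpperHalfPlane.mk (-(L.ω₂ / L.ω₁)) hpos', L.ω₁, h1, ?_⟩
    show Submodule.span ℤ {L.ω₁, L.ω₂} =
      Submodule.span ℤ {L.ω₁ * 1, L.ω₁ * (-(L.ω₂ / L.ω₁))}
    have e2 : L.ω₁ * (-(L.ω₂ / L.ω₁)) = -L.ω₂ := by field_simp
    rw [mul_one, e2]
    ext z
    simp only [Submodule.mem_span_pair, zsmul_eq_mul]
    constructor
    · rintro ⟨a, b, rfl⟩
      exact ⟨a, -b, by push_cast; ring⟩
    · rintro ⟨a, b, rfl⟩
      exact ⟨a, -b, by push_cast; ring⟩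
  · refine ⟨UpperHalfPlane.mk (L.ω₂ / L.ω₁) hpos, L.ω₁, h1, ?_⟩
    show Submodule.span ℤ {L.ω₁, L.ω₂} =
      Submodule.span ℤ {L.ω₁ * 1, L.ω₁ * (L.ω₂ / L.ω₁)}
    have e2 : L.ω₁ * (L.ω₂ / L.ω₁) = L.ω₂ := by field_simp
    rw [mul_one, e2]

/-- `g₂³ - 27 g₃² ≠ 0` for every lattice. -/
theorem disc_ne_zero_h215 (L : PeriodPair) : L.g₂ ^ 3 - 27 * L.g₃ ^ 2 ≠ 0 := by
  obtain ⟨τ, c, hc, h⟩ := exists_pairOf_lattice_h215 L
  rw [g₂_congr_h215 h, g₃_congr_h215 h, disc_scalePair_h215]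
  exact mul_ne_zero (inv_ne_zero (pow_ne_zero _ hc)) (disc_pairOf_ne_zero_h215 τ)

/-! ## B2 -/

/-- **B2.**  Every pair `(g₂, g₃)` with `g₂³ - 27 g₃² ≠ 0` is the pair of invariants of a lattice. -/
theorem exists_periodPair_h215 (g₂ g₃ : ℂ) (h : g₂ ^ 3 - 27 * g₃ ^ 2 ≠ 0) :
    ∃ L : PeriodPair, L.g₂ = g₂ ∧ L.g₃ = g₃ := by
  obtain ⟨τ, hτ⟩ := Fermat.Agent.S24.M7.H47.jFun_surjective
    (1728 * g₂ ^ 3 / (g₂ ^ 3 - 27 * g₃ ^ 2))
  have hJ : latticeJ (pairOf τ) = 1728 * g₂ ^ 3 / (g₂ ^ 3 - 27 * g₃ ^ 2) := by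
    rw [latticeJ_pairOf_h215]
    exact hτ
  set G₂ := (pairOf τ).g₂ with hG₂
  set G₃ := (pairOf τ).g₃ with hG₃
  have hD : G₂ ^ 3 - 27 * G₃ ^ 2 ≠ 0 := disc_pairOf_ne_zero_h215 τ
  have hcross : G₂ ^ 3 * g₃ ^ 2 = g₂ ^ 3 * G₃ ^ 2 := by
    unfold latticeJ at hJ
    rw [div_eq_div_iff hD h] at hJ
    linear_combination (-1 / (1728 * 27) : ℂ) * hJ
  have hd1 : (G₂ / 3) ^ 3 - G₃ ^ 2 ≠ 0 := by
    intro h0
    apply hD
    linear_combination (27 : ℂ) * h0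
  have hd2 : (g₂ / 3) ^ 3 - g₃ ^ 2 ≠ 0 := by
    intro h0
    apply h
    linear_combination (27 : ℂ) * h0
  obtain ⟨μ, hμ, h4, h6⟩ := Fermat.Agent.S20.JInjective.exists_scale (G₂ / 3) G₃ (g₂ / 3) g₃
    hd1 hd2 (by linear_combination (1 / 27 : ℂ) * hcross)
  refine ⟨scalePair μ⁻¹ (inv_ne_zero hμ) (pairOf τ), ?_, ?_⟩
  · rw [Fermat.Agent.S20.T2h423.g₂_scalePair, ← hG₂]
    have : g₂ = μ ^ 4 * G₂ := by linear_combination (3 : ℂ) * h4
    rw [this, inv_pow, inv_inv]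
  · rw [Fermat.Agent.S20.T2h423.g₃_scalePair, ← hG₃, h6, inv_pow, inv_inv]

end Fermat.Agent.S15.H215
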