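import Fermat.Agent.S15.H542.ModBSpec
import Fermat.Agent.S15.H215.LatticeJ
import Fermat.Agent.S28.H565.JExp
import Fermat.Agent.S28.H589.ModPoly

/-!
# S15, piece MOD-B5 (helper215): lattices of index `p` give points of the plane model of `X₀(p)`

`latticeModularPair : LatticeModularPairStatement` (exact type of `H542/ModBSpec.lean`).

* `exists_tau_h215` : if `Λ' = Λ + ℤ z₀` has index `p` over `Λ`, then `Λ = c (ℤ + ℤ τ)` and
  `Λ' = (c/p) (ℤ + ℤ p τ)` for some `τ ∈ ℍ`, `c ≠ 0`;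
* `isModularPair_jFun_h215` : `(j(τ), j(p τ))` satisfies every polynomial relation over `ℚ` between
  the `q`-series `j(q)`, `j(q^p)` (S28 `HasTExp` calculus).
-/

set_option autoImplicit false

noncomputable section

open UpperHalfPlane ModularForm EisensteinSeries ModularCurve

namespace Fermat.Agent.S15.H215

open Fermat.Agent.S15.H542
open Fermat.Agent.S20.T2h423 (pairOf scalePair)
open Fermat.Agent.S28.H565 (HasTExp hasTExp_jFun)
open Fermat.Agent.S28.H589 (scaleH hasTExp_comp_scaleH)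

/-! ## Evaluation of polynomial relations -/

/-- Naturality of `MvPolynomial.aeval` at a pair, for ring homomorphisms of `ℚ`-algebras. -/
theorem aeval_pair_map_h215 {A B : Type*} [CommRing A] [CommRing B] [Algebra ℚ A] [Algebra ℚ B]
    (f : A →+* B) (a a' : A) (G : MvPolynomial (Fin 2) ℚ) :
    MvPolynomial.aeval ![f a, f a'] G = f (MvPolynomial.aeval ![a, a'] G) := by
  induction G using MvPolynomial.induction_on with
  | C r => simp
  | add p q hp hq => simp only [map_add, hp, hq]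
  | mul_X p i hp =>
    simp only [map_mul, hp, MvPolynomial.aeval_X]
    congr 1
    fin_cases i <;> simp

theorem coeffEmb_jq_h215 : coeffEmb ℂ jq = jqModC ℂ := by
  rw [← jqModC_rat]
  exact map_jqModC (algebraMap ℚ ℂ)

theorem coeffEmb_qExpand_h215 (n : ℕ) [NeZero n] (x : LaurentSeries ℚ) :
    coeffEmb ℂ (qExpand ℚ n x) = qExpand ℂ n (coeffEmb ℂ x) := by
  ext k
  by_cases hk : (n : ℤ) ∣ k
  · obtain ⟨m, rfl⟩ := hk
    rw [coeffEmb_coeff, qExpand_coeff_mul, qExpand_coeff_mul, coeffEmb_coeff]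
  · rw [coeffEmb_coeff, qExpand_coeff_of_not_dvd n _ hk, qExpand_coeff_of_not_dvd n _ hk,
      map_zero]

/-- `HasTExp` is compatible with polynomial expressions in two functions. -/
theorem hasTExp_aeval_pair_h215 {a b : ℍ → ℂ} {α β : LaurentSeries ℂ}
    (ha : HasTExp 1 a α) (hb : HasTExp 1 b β) (G : MvPolynomial (Fin 2) ℚ) :
    HasTExp 1 (fun τ => MvPolynomial.aeval ![a τ, b τ] G) (MvPolynomial.aeval ![α, β] G) := by
  induction G using MvPolynomial.induction_on with
  | C r =>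
    have h1 := HasTExp.const (h := 1) (algebraMap ℚ ℂ r)
    have h2 : (MvPolynomial.aeval ![α, β]) (MvPolynomial.C r) = HahnSeries.C (algebraMap ℚ ℂ r) := by
      rw [MvPolynomial.aeval_C, eq_ratCast (algebraMap ℚ (LaurentSeries ℂ)) r,
        eq_ratCast (algebraMap ℚ ℂ) r, map_ratCast]
    rw [h2]
    exact h1.congr fun τ => by simp
  | add p q hp hq =>
    rw [map_add]
    exact (hp.add hq).congr fun τ => by simp
  | mul_X p i hp =>
    rw [map_mul, MvPolynomial.aeval_X]
    fin_cases i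
    · exact (hp.mul ha).congr fun τ => by simp
    · exact (hp.mul hb).congr fun τ => by simp

/-- `(j(τ), j(p τ))` is a point of the plane model of `X₀(p)`. -/
theorem isModularPair_jFun_h215 (p : ℕ) [NeZero p] (hp : 0 < p) (τ : ℍ) :
    IsModularPair p (Fermat.Agent.S28.H565.jFun τ)
      (Fermat.Agent.S28.H565.jFun (scaleH p hp τ)) := by
  intro G hG
  have h1 : MvPolynomial.aeval ![jqModC ℂ, qExpand ℂ p (jqModC ℂ)] G = 0 := by
    have := aeval_pair_map_h215 (coeffEmb ℂ) jq (qExpand ℚ p jq) G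
    rw [hG, map_zero, coeffEmb_qExpand_h215, coeffEmb_jq_h215] at this
    exact this
  have h2 := hasTExp_aeval_pair_h215 hasTExp_jFun
    (hasTExp_comp_scaleH p hp hasTExp_jFun) G
  rw [h1] at h2
  have h3 := h2 τ
  have h4 : HasSum (fun n : ℤ => (0 : LaurentSeries ℂ).coeff n * Function.Periodic.qParam 1 τ ^ n) 0 := by
    simpa using (hasSum_zero : HasSum (fun _ : ℤ => (0 : ℂ)) 0)
  exact h3.unique h4

/-! ## Aligning the bases -/

/-- Abstract basis alignment: if `p z₀ = a ω₁ + b ω₂` with `(b, p) = 1`, there is `e` with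
`ℤω₁ + ℤω₂ = ℤω₁ + ℤe` and `ℤω₁ + ℤω₂ + ℤz₀ = ℤω₁ + ℤ(e/p)`. -/
theorem exists_aligned_basis_h215 (ω₁ ω₂ z₀ : ℂ) (indep : LinearIndependent ℝ ![ω₁, ω₂]) (p : ℕ)
    (hp0 : p ≠ 0) (a b : ℤ) (h : (p : ℂ) * z₀ = a * ω₁ + b * ω₂) (hb : IsCoprime b (p : ℤ)) :
    ∃ e : ℂ, LinearIndependent ℝ ![ω₁, e] ∧
      (∀ z : ℂ, z ∈ Submodule.span ℤ {ω₁, ω₂} ↔ z ∈ Submodule.span ℤ {ω₁, e}) ∧
      ∀ z : ℂ, (∃ k : ℤ, z - k * z₀ ∈ Submodule.span ℤ {ω₁, ω₂}) ↔
        z ∈ Submodule.span ℤ {ω₁, e / p} := by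
  obtain ⟨u, v, huv⟩ := hb
  have huvC : (u : ℂ) * b + v * p = 1 := by exact_mod_cast congrArg (Int.cast : ℤ → ℂ) huv
  have hpC : (p : ℂ) ≠ 0 := by exact_mod_cast hp0
  set e : ℂ := u * a * ω₁ + ω₂ with he
  have hw : e / p = u * z₀ + v * ω₂ := by
    rw [he]
    field_simp
    linear_combination (-(u : ℂ)) * h - ω₂ * huvC
  have hz₀ : z₀ = b * (e / p) + v * a * ω₁ := by
    rw [hw]
    linear_combination (-z₀) * huvC + (v : ℂ) * h
  refine ⟨e, ?_, ?_, ?_⟩
  · rw [LinearIndependent.pair_iff] at indep ⊢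
    intro s t hst
    have h1 : (s + t * (u * a) : ℝ) • ω₁ + t • ω₂ = 0 := by
      simp only [Complex.real_smul] at hst ⊢
      rw [he] at hst
      push_cast
      linear_combination hst
    obtain ⟨h2, h3⟩ := indep _ _ h1
    refine ⟨?_, h3⟩
    rw [h3] at h2
    simpa using h2
  · intro z
    simp only [Submodule.mem_span_pair, zsmul_eq_mul]
    constructor
    · rintro ⟨m, n, rfl⟩
      exact ⟨m - n * u * a, n, by rw [he]; push_cast; ring⟩
    · rintro ⟨m, n, rfl⟩
      exact ⟨m + n * u * a, n, by rw [he]; push_cast; ring⟩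
  · intro z
    simp only [Submodule.mem_span_pair, zsmul_eq_mul]
    constructor
    · rintro ⟨k, m, n, hmn⟩
      refine ⟨k * v * a + m - n * u * a, k * b + n * p, ?_⟩
      have hz : z = k * z₀ + (m * ω₁ + n * ω₂) := by linear_combination -hmn
      have hω₂ : ω₂ = p * (e / p) - u * a * ω₁ := by
        rw [mul_div_cancel₀ _ hpC, he]; ring
      rw [hz]
      push_cast
      calc (↑k * ↑v * ↑a + ↑m - ↑n * ↑u * ↑a) * ω₁ + (↑k * ↑b + ↑n * ↑p) * (e / p)
          = k * (b * (e / p) + v * a * ω₁) + (m * ω₁ + n * (p * (e / p) - u * a * ω₁)) := by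
            ring
        _ = k * z₀ + (m * ω₁ + n * ω₂) := by rw [← hz₀, ← hω₂]
    · rintro ⟨m, n, rfl⟩
      refine ⟨n * u, m, n * v, ?_⟩
      rw [hw]; push_cast; ring

/-- From an aligned basis to `τ`. -/
theorem exists_tau_of_span_h215 (ω e : ℂ) (hind : LinearIndependent ℝ ![ω, e]) (p : ℕ)
    (hp : 0 < p) :
    ∃ (τ : ℍ) (c : ℂ) (hc : c ≠ 0) (hc' : c / p ≠ 0),
      Submodule.span ℤ {ω, e} = (scalePair c hc (pairOf τ)).lattice ∧
      Submodule.span ℤ {ω, e / p} =
        (scalePair (c / p) hc' (pairOf (scaleH p hp τ))).lattice := by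
  have hpC : (p : ℂ) ≠ 0 := by exact_mod_cast hp.ne'
  rw [LinearIndependent.pair_iff] at hind
  have he : e ≠ 0 := by
    intro h
    have := hind 0 1 (by simp [h])
    exact one_ne_zero this.2
  have hep : e / p ≠ 0 := div_ne_zero he hpC
  have him : (ω / e).im ≠ 0 := by
    intro h
    have ht : ω / e = (((ω / e).re : ℝ) : ℂ) := by
      apply Complex.ext <;> simp [h]
    have h2 : (1 : ℝ) • ω + (-(ω / e).re) • e = 0 := by
      simp only [Complex.real_smul]
      push_cast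
      rw [← ht]
      field_simp
      ring
    exact one_ne_zero (hind _ _ h2).1
  have key : ∀ t : ℂ, (t = ω / e ∨ t = -(ω / e)) → ∀ ht : 0 < t.im,
      Submodule.span ℤ {ω, e} = (scalePair e he (pairOf (UpperHalfPlane.mk t ht))).lattice ∧
      Submodule.span ℤ {ω, e / p} =
        (scalePair (e / p) hep (pairOf (scaleH p hp (UpperHalfPlane.mk t ht)))).lattice := by
    intro t htω ht
    constructor
    · show Submodule.span ℤ {ω, e} = Submodule.span ℤ {e * 1, e * t}
      rw [mul_one]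
      ext z
      simp only [Submodule.mem_span_pair, zsmul_eq_mul]
      rcases htω with rfl | rfl
      · have e2 : e * (ω / e) = ω := by field_simp
        rw [e2]
        constructor
        · rintro ⟨a, b, rfl⟩; exact ⟨b, a, by ring⟩
        · rintro ⟨a, b, rfl⟩; exact ⟨b, a, by ring⟩
      · have e2 : e * (-(ω / e)) = -ω := by field_simp
        rw [e2]
        constructor
        · rintro ⟨a, b, rfl⟩; exact ⟨b, -a, by push_cast; ring⟩
        · rintro ⟨a, b, rfl⟩; exact ⟨-b, a, by push_cast; ring⟩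
    · show Submodule.span ℤ {ω, e / p} = Submodule.span ℤ {e / p * 1, e / p * ((p : ℂ) * t)}
      rw [mul_one]
      ext z
      simp only [Submodule.mem_span_pair, zsmul_eq_mul]
      rcases htω with rfl | rfl
      · have e2 : e / p * ((p : ℂ) * (ω / e)) = ω := by field_simp
        rw [e2]
        constructor
        · rintro ⟨a, b, rfl⟩; exact ⟨b, a, by ring⟩
        · rintro ⟨a, b, rfl⟩; exact ⟨b, a, by ring⟩
      · have e2 : e / p * ((p : ℂ) * (-(ω / e))) = -ω := by field_simp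
        rw [e2]
        constructor
        · rintro ⟨a, b, rfl⟩; exact ⟨b, -a, by push_cast; ring⟩
        · rintro ⟨a, b, rfl⟩; exact ⟨-b, a, by push_cast; ring⟩
  rcases lt_or_gt_of_ne him with hneg | hpos
  · have hpos' : 0 < (-(ω / e)).im := by simpa using hneg
    exact ⟨UpperHalfPlane.mk _ hpos', e, he, hep, key _ (Or.inr rfl) hpos'⟩
  · exact ⟨UpperHalfPlane.mk _ hpos, e, he, hep, key _ (Or.inl rfl) hpos⟩

/-- If `Λ' = Λ + ℤ z₀` has index `p` over `Λ`, then `Λ = c (ℤ + ℤ τ)`, `Λ' = (c/p) (ℤ + ℤ p τ)`. -/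
theorem exists_tau_h215 {L L' : PeriodPair} {z₀ : ℂ} {p : ℕ} (hp : p.Prime)
    (h0 : z₀ ∉ L.lattice) (hpz : (p : ℂ) * z₀ ∈ L.lattice) (hL' : IsSuperLattice L L' z₀) :
    ∃ (τ : ℍ) (c : ℂ) (hc : c ≠ 0) (hc' : c / p ≠ 0),
      L.lattice = (scalePair c hc (pairOf τ)).lattice ∧
      L'.lattice = (scalePair (c / p) hc' (pairOf (scaleH p hp.pos τ))).lattice := by
  obtain ⟨a, b, hab⟩ := PeriodPair.mem_lattice.mp hpz
  have hLspan : L.lattice = Submodule.span ℤ {L.ω₁, L.ω₂} := rfl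
  by_cases hb : (p : ℤ) ∣ b
  · have ha : ¬ (p : ℤ) ∣ a := by
      rintro ⟨a', rfl⟩
      obtain ⟨b', rfl⟩ := hb
      apply h0
      rw [PeriodPair.mem_lattice]
      refine ⟨a', b', ?_⟩
      have hpC : (p : ℂ) ≠ 0 := by exact_mod_cast hp.ne_zero
      apply mul_left_cancel₀ hpC
      rw [← hab]; push_cast; ring
    have hcop : IsCoprime a (p : ℤ) :=
      ((Nat.prime_iff_prime_int.mp hp).coprime_iff_not_dvd.mpr ha).symm
    have hindep : LinearIndependent ℝ ![L.ω₂, L.ω₁] := by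
      have h := L.indep
      rw [LinearIndependent.pair_iff] at h ⊢
      intro s t hst
      have := h t s (by rw [← hst]; ring)
      exact ⟨this.2, this.1⟩
    obtain ⟨e, hind, hspan1, hspan2⟩ := exists_aligned_basis_h215 L.ω₂ L.ω₁ z₀ hindep p
      hp.ne_zero b a (by rw [← hab]; ring) hcop
    obtain ⟨τ, c, hc, hc', h1, h2⟩ := exists_tau_of_span_h215 L.ω₂ e hind p hp.pos
    refine ⟨τ, c, hc, hc', ?_, ?_⟩
    · rw [← h1]
      ext z
      rw [hLspan, Set.pair_comm L.ω₁ L.ω₂]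
      exact hspan1 z
    · rw [← h2]
      ext z
      rw [hL' z, ← hspan2 z, hLspan, Set.pair_comm L.ω₁ L.ω₂]
  · have hcop : IsCoprime b (p : ℤ) :=
      ((Nat.prime_iff_prime_int.mp hp).coprime_iff_not_dvd.mpr hb).symm
    obtain ⟨e, hind, hspan1, hspan2⟩ := exists_aligned_basis_h215 L.ω₁ L.ω₂ z₀ L.indep p
      hp.ne_zero a b hab.symm hcop
    obtain ⟨τ, c, hc, hc', h1, h2⟩ := exists_tau_of_span_h215 L.ω₁ e hind p hp.pos
    refine ⟨τ, c, hc, hc', ?_, ?_⟩
    · rw [← h1]
      ext z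
      rw [hLspan]
      exact hspan1 z
    · rw [← h2]
      ext z
      rw [hL' z, ← hspan2 z, hLspan]

/-! ## B5 -/

/-- **B5.**  Lattices of index `p` give points of the plane model of `X₀(p)`. -/
theorem latticeModularPair : LatticeModularPairStatement := by
  intro p _ hp L L' z₀ h0 hpz hL'
  refine ⟨disc_ne_zero_h215 L, disc_ne_zero_h215 L', ?_⟩
  obtain ⟨τ, c, hc, hc', h1, h2⟩ := exists_tau_h215 hp h0 hpz hL'
  have hj1 : latticeJ L = Fermat.Agent.S28.H565.jFun τ := by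
    rw [latticeJ_congr_h215 h1, latticeJ_scalePair_h215, latticeJ_pairOf_h215]
    rfl
  have hj2 : latticeJ L' = Fermat.Agent.S28.H565.jFun (scaleH p hp.pos τ) := by
    rw [latticeJ_congr_h215 h2, latticeJ_scalePair_h215, latticeJ_pairOf_h215]
    rfl
  rw [hj1, hj2]
  exact isModularPair_jFun_h215 p hp.pos τ

end Fermat.Agent.S15.H215
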