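import Mathlib

/-!
# S15, piece MOD-B4 (helper215): derivatives of the Weierstrass `℘`-function off the lattice

Mathlib-only.  For a period pair `L` and `x ∉ L.lattice`:

* `deriv_derivWeierstrassP_h215` : second derivative `℘₂ = 6 ℘² - g₂ / 2`;
* `deriv_deriv_derivWeierstrassP_h215` : third derivative `℘₃ = 12 ℘ ℘₁`;
* `deriv_deriv_deriv_derivWeierstrassP_h215` : fourth derivative `℘₄ = 120 ℘³ - 18 g₂ ℘ - 12 g₃`;
* `six_mul_sumInvPow_four_h215` : `6 ∑ (l - x)⁻⁴ = 6 ℘(x)² - g₂ / 2`;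
* `mul_sumInvPow_six_h215` : `120 ∑ (l - x)⁻⁶ = 120 ℘(x)³ - 18 g₂ ℘(x) - 12 g₃`;
* `isPreconnected_compl_lattice_h215`, `exists_derivWeierstrassP_ne_zero_h215`.

Method: differentiate Mathlib's relation `℘₁² = 4 ℘³ - g₂ ℘ - g₃`, cancel `℘₁` by the identity
theorem on the connected open set `ℂ \ L`, and read the lattice sums off the Taylor coefficients
of `℘` (`PeriodPair.iteratedDeriv_weierstrassPExcept_self`).
-/

set_option autoImplicit false

namespace Fermat.Agent.S15.H215

open Filter Topology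

variable (L : PeriodPair)

theorem countable_lattice_h215 : (L.lattice : Set ℂ).Countable := by
  have : Countable L.lattice := L.latticeEquivProd.toEquiv.countable_iff.mpr inferInstance
  exact Set.countable_coe_iff.mp this

theorem isPreconnected_compl_lattice_h215 : IsPreconnected ((L.lattice : Set ℂ)ᶜ) :=
  ((countable_lattice_h215 L).isConnected_compl_of_one_lt_rank
    (by simp only [Complex.rank_real_complex, Nat.one_lt_ofNat])).isPreconnected

theorem isOpen_compl_lattice_h215 : IsOpen ((L.lattice : Set ℂ)ᶜ) :=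
  L.isClosed_lattice.isOpen_compl

/-- `℘'` is not identically zero off the lattice. -/
theorem exists_derivWeierstrassP_ne_zero_h215 :
    ¬ ∀ z ∈ ((L.lattice : Set ℂ)ᶜ), L.derivWeierstrassP z = 0 := by
  intro h
  have hconst : ∃ a, ∀ x ∈ ((L.lattice : Set ℂ)ᶜ), L.weierstrassP x = a := by
    refine (isOpen_compl_lattice_h215 L).exists_is_const_of_deriv_eq_zero
      (isPreconnected_compl_lattice_h215 L) L.differentiableOn_weierstrassP ?_
    intro x hx
    rw [L.deriv_weierstrassP]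
    exact h x hx
  obtain ⟨a, ha⟩ := hconst
  have hev : L.weierstrassP =ᶠ[𝓝[≠] (0 : ℂ)] fun _ => a := by
    have h1 : ((↑L.lattice \ {(0 : ℂ)})ᶜ : Set ℂ) ∈ 𝓝 (0 : ℂ) :=
      L.compl_lattice_sdiff_singleton_mem_nhds 0
    filter_upwards [mem_nhdsWithin_of_mem_nhds h1, self_mem_nhdsWithin] with z hz hz0
    apply ha
    intro hzL
    exact hz ⟨hzL, hz0⟩
  have hord := L.order_weierstrassP 0 (zero_mem _)
  classical
  have h2 : (-2 : WithTop ℤ) = ((-2 : ℤ) : WithTop ℤ) := by norm_num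
  rw [meromorphicOrderAt_congr hev, meromorphicOrderAt_const, h2] at hord
  split_ifs at hord
  · exact WithTop.top_ne_coe hord
  · have h0 : (0 : WithTop ℤ) = ((0 : ℤ) : WithTop ℤ) := rfl
    rw [h0, WithTop.coe_eq_coe] at hord
    omega

theorem hasDerivAt_wp_h215 (z : ℂ) (hz : z ∉ L.lattice) :
    HasDerivAt L.weierstrassP (L.derivWeierstrassP z) z := by
  have h := (L.analyticOnNhd_weierstrassP z hz).differentiableAt.hasDerivAt
  rwa [L.deriv_weierstrassP] at h

theorem hasDerivAt_derivWp_h215 (z : ℂ) (hz : z ∉ L.lattice) :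
    HasDerivAt L.derivWeierstrassP (deriv L.derivWeierstrassP z) z :=
  (L.analyticOnNhd_derivWeierstrassP z hz).differentiableAt.hasDerivAt

/-- `℘'' = 6 ℘² - g₂ / 2` off the lattice. -/
theorem deriv_derivWeierstrassP_h215 (z : ℂ) (hz : z ∉ L.lattice) :
    deriv L.derivWeierstrassP z = 6 * L.weierstrassP z ^ 2 - L.g₂ / 2 := by
  have hmul : ∀ w ∈ ((L.lattice : Set ℂ)ᶜ), L.derivWeierstrassP w *
      (deriv L.derivWeierstrassP w - (6 * L.weierstrassP w ^ 2 - L.g₂ / 2)) = 0 := by
    intro w hw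
    have hev : (fun z => L.derivWeierstrassP z ^ 2) =ᶠ[𝓝 w]
        fun z => 4 * L.weierstrassP z ^ 3 - L.g₂ * L.weierstrassP z - L.g₃ := by
      filter_upwards [(isOpen_compl_lattice_h215 L).mem_nhds hw] with z hz
      exact L.derivWeierstrassP_sq z hz
    have h1 : HasDerivAt (fun z => L.derivWeierstrassP z ^ 2)
        (2 * L.derivWeierstrassP w ^ 1 * deriv L.derivWeierstrassP w) w := by
      simpa using (hasDerivAt_derivWp_h215 L w hw).fun_pow 2
    have h2 : HasDerivAt (fun z => 4 * L.weierstrassP z ^ 3 - L.g₂ * L.weierstrassP z - L.g₃)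
        (4 * (3 * L.weierstrassP w ^ 2 * L.derivWeierstrassP w) - L.g₂ * L.derivWeierstrassP w)
        w := by
      have := (((hasDerivAt_wp_h215 L w hw).fun_pow 3).const_mul 4).fun_sub
        ((hasDerivAt_wp_h215 L w hw).const_mul L.g₂)
      simpa using this.sub_const L.g₃
    have h3 := (hev.hasDerivAt_iff.mpr h2).unique h1
    linear_combination (-1 / 2 : ℂ) * h3
  have hA1 : AnalyticOnNhd ℂ L.derivWeierstrassP ((L.lattice : Set ℂ)ᶜ) :=
    L.analyticOnNhd_derivWeierstrassP
  have hA2 : AnalyticOnNhd ℂ (fun w => deriv L.derivWeierstrassP w -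
      (6 * L.weierstrassP w ^ 2 - L.g₂ / 2)) ((L.lattice : Set ℂ)ᶜ) := by
    have hd : AnalyticOnNhd ℂ (deriv L.derivWeierstrassP) ((L.lattice : Set ℂ)ᶜ) := hA1.deriv
    have hp : AnalyticOnNhd ℂ L.weierstrassP ((L.lattice : Set ℂ)ᶜ) :=
      L.analyticOnNhd_weierstrassP
    intro w hw
    have := hd w hw
    have := hp w hw
    fun_prop
  rcases hA1.eq_zero_or_eq_zero_of_mul_eq_zero hA2 hmul (isPreconnected_compl_lattice_h215 L)
    with h | h
  · exact absurd h (exists_derivWeierstrassP_ne_zero_h215 L)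
  · have := h z hz
    linear_combination this

/-- `℘''' = 12 ℘ ℘'` off the lattice. -/
theorem deriv_deriv_derivWeierstrassP_h215 (z : ℂ) (hz : z ∉ L.lattice) :
    deriv (deriv L.derivWeierstrassP) z = 12 * L.weierstrassP z * L.derivWeierstrassP z := by
  have hev : deriv L.derivWeierstrassP =ᶠ[𝓝 z] fun w => 6 * L.weierstrassP w ^ 2 - L.g₂ / 2 := by
    filter_upwards [(isOpen_compl_lattice_h215 L).mem_nhds hz] with w hw
    exact deriv_derivWeierstrassP_h215 L w hw
  have h2 : HasDerivAt (fun w => 6 * L.weierstrassP w ^ 2 - L.g₂ / 2)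
      (6 * (2 * L.weierstrassP z ^ 1 * L.derivWeierstrassP z)) z := by
    simpa using (((hasDerivAt_wp_h215 L z hz).fun_pow 2).const_mul 6).sub_const (L.g₂ / 2)
  rw [(hev.hasDerivAt_iff.mpr h2).deriv]
  ring

/-- `℘'''' = 120 ℘³ - 18 g₂ ℘ - 12 g₃` off the lattice. -/
theorem deriv_deriv_deriv_derivWeierstrassP_h215 (z : ℂ) (hz : z ∉ L.lattice) :
    deriv (deriv (deriv L.derivWeierstrassP)) z =
      120 * L.weierstrassP z ^ 3 - 18 * L.g₂ * L.weierstrassP z - 12 * L.g₃ := by
  have hev : deriv (deriv L.derivWeierstrassP) =ᶠ[𝓝 z]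
      fun w => 12 * L.weierstrassP w * L.derivWeierstrassP w := by
    filter_upwards [(isOpen_compl_lattice_h215 L).mem_nhds hz] with w hw
    exact deriv_deriv_derivWeierstrassP_h215 L w hw
  have h2 : HasDerivAt (fun w => 12 * L.weierstrassP w * L.derivWeierstrassP w)
      (12 * L.derivWeierstrassP z * L.derivWeierstrassP z +
        12 * L.weierstrassP z * deriv L.derivWeierstrassP z) z := by
    simpa using ((hasDerivAt_wp_h215 L z hz).const_mul 12).fun_mul (hasDerivAt_derivWp_h215 L z hz)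
  rw [(hev.hasDerivAt_iff.mpr h2).deriv, deriv_derivWeierstrassP_h215 L z hz]
  have h3 := L.derivWeierstrassP_sq z hz
  linear_combination 12 * h3

/-- `6 ∑ (l - x)⁻⁴ = 6 ℘(x)² - g₂ / 2`. -/
theorem six_mul_sumInvPow_four_h215 (x : ℂ) (hx : x ∉ L.lattice) :
    6 * L.sumInvPow x 4 = 6 * L.weierstrassP x ^ 2 - L.g₂ / 2 := by
  have h := L.iteratedDeriv_weierstrassPExcept_self x (n := 2)
  rw [L.weierstrassPExcept_of_notMem x hx, if_neg (by norm_num)] at h
  have h2 : iteratedDeriv 2 L.weierstrassP x = deriv L.derivWeierstrassP x := by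
    rw [iteratedDeriv_succ, iteratedDeriv_one, L.deriv_weierstrassP]
  rw [h2, deriv_derivWeierstrassP_h215 L x hx] at h
  rw [h]
  norm_num [Nat.factorial]

/-- `120 ∑ (l - x)⁻⁶ = 120 ℘(x)³ - 18 g₂ ℘(x) - 12 g₃`. -/
theorem mul_sumInvPow_six_h215 (x : ℂ) (hx : x ∉ L.lattice) :
    120 * L.sumInvPow x 6 =
      120 * L.weierstrassP x ^ 3 - 18 * L.g₂ * L.weierstrassP x - 12 * L.g₃ := by
  have h := L.iteratedDeriv_weierstrassPExcept_self x (n := 4)
  rw [L.weierstrassPExcept_of_notMem x hx, if_neg (by norm_num)] at h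
  have h2 : iteratedDeriv 4 L.weierstrassP x =
      deriv (deriv (deriv L.derivWeierstrassP)) x := by
    rw [iteratedDeriv_succ, iteratedDeriv_succ, iteratedDeriv_succ, iteratedDeriv_one,
      L.deriv_weierstrassP]
  rw [h2, deriv_deriv_deriv_derivWeierstrassP_h215 L x hx] at h
  rw [h]
  norm_num [Nat.factorial]

end Fermat.Agent.S15.H215
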