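import Fermat.Agent.S15.H542.ModBSpec
import Fermat.Agent.S15.H215.WpDeriv

/-!
# S15, piece MOD-B4 (helper215): the lattice form of Vélu's formulas

`latticeVelu : LatticeVeluStatement` (exact type of `Fermat/Agent/S15/H542/ModBSpec.lean`).

For a period pair `L`, a prime `p` and `z₀ ∉ L` with `p z₀ ∈ L`:

* `exists_superLattice_h215` : there is a period pair `L'` with lattice `L + ℤ z₀`
  (explicit basis from a Bézout relation);
* `G_superLattice_h215` : for ANY such `L'` and `n > 2`,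
  `G_n(L') = ∑_{k < p} ∑_{l ∈ L} (l + k z₀)⁻ⁿ` (coset decomposition of the lattice sum);
* `g₂_superLattice_h215`, `g₃_superLattice_h215` : for ANY such `L'`,
  `g₂(L') = g₂(L) + 10 ∑_{k=1}^{p-1} (6 ℘(k z₀)² - g₂/2)`,
  `g₃(L') = g₃(L) + (7/6) ∑_{k=1}^{p-1} (120 ℘(k z₀)³ - 18 g₂ ℘(k z₀) - 12 g₃)`.
-/

set_option autoImplicit false

namespace Fermat.Agent.S15.H215

open Filter Topology
open Fermat.Agent.S15.H542

variable {L L' : PeriodPair} {z₀ : ℂ} {p : ℕ}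

theorem intCast_mul_mem_h215 (L : PeriodPair) (m : ℤ) {x : ℂ} (hx : x ∈ L.lattice) :
    (m : ℂ) * x ∈ L.lattice := by
  have := L.lattice.smul_mem m hx
  rwa [zsmul_eq_mul] at this

theorem mul_mem_lattice_iff_h215 (hp : p.Prime) (h0 : z₀ ∉ L.lattice)
    (hpz : (p : ℂ) * z₀ ∈ L.lattice) (d : ℤ) :
    (d : ℂ) * z₀ ∈ L.lattice ↔ (p : ℤ) ∣ d := by
  constructor
  · intro hd
    by_contra hnd
    have hcop : IsCoprime d (p : ℤ) :=
      ((Nat.prime_iff_prime_int.mp hp).coprime_iff_not_dvd.mpr hnd).symm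
    obtain ⟨u, v, huv⟩ := hcop
    apply h0
    have h1 := intCast_mul_mem_h215 L u hd
    have h2 := intCast_mul_mem_h215 L v hpz
    have h3 := L.lattice.add_mem h1 h2
    have h4 : (u : ℂ) * ((d : ℂ) * z₀) + (v : ℂ) * ((p : ℂ) * z₀) = z₀ := by
      have : ((u * d + v * (p : ℤ) : ℤ) : ℂ) = 1 := by rw [huv]; simp
      push_cast at this
      linear_combination z₀ * this
    rwa [h4] at h3
  · rintro ⟨m, rfl⟩
    have := intCast_mul_mem_h215 L m hpz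
    have h4 : (m : ℂ) * ((p : ℂ) * z₀) = ((p : ℤ) * m : ℤ) * z₀ := by push_cast; ring
    rwa [h4] at this

/-- The coset map `(k, l) ↦ l + k z₀`. -/
noncomputable def cosetMapH215 (hL' : IsSuperLattice L L' z₀) (p : ℕ) :
    Fin p × L.lattice → L'.lattice :=
  fun x => ⟨(x.2 : ℂ) + (x.1.val : ℂ) * z₀, (hL' _).mpr ⟨(x.1.val : ℤ), by
    have : (x.2 : ℂ) + (x.1.val : ℂ) * z₀ - ((x.1.val : ℤ) : ℂ) * z₀ = (x.2 : ℂ) := by
      push_cast; ring
    rw [this]; exact x.2.2⟩⟩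

theorem cosetMapH215_bijective (hp : p.Prime) (h0 : z₀ ∉ L.lattice)
    (hpz : (p : ℂ) * z₀ ∈ L.lattice) (hL' : IsSuperLattice L L' z₀) :
    Function.Bijective (cosetMapH215 hL' p) := by
  constructor
  · rintro ⟨k, l⟩ ⟨k', l'⟩ h
    have h1 : (l : ℂ) + (k.val : ℂ) * z₀ = (l' : ℂ) + (k'.val : ℂ) * z₀ := congrArg Subtype.val h
    have h2 : (((k.val : ℤ) - (k'.val : ℤ) : ℤ) : ℂ) * z₀ ∈ L.lattice := by
      have h3 : (((k.val : ℤ) - (k'.val : ℤ) : ℤ) : ℂ) * z₀ = (l' : ℂ) - (l : ℂ) := by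
        push_cast; linear_combination h1
      rw [h3]
      exact L.lattice.sub_mem l'.2 l.2
    have h4 := (mul_mem_lattice_iff_h215 hp h0 hpz _).mp h2
    have h5 : ((k.val : ℤ) - (k'.val : ℤ)) = 0 := by
      apply Int.eq_zero_of_abs_lt_dvd h4
      have := k.isLt
      have := k'.isLt
      rw [abs_lt]
      constructor <;> omega
    have h6 : k = k' := by
      apply Fin.ext
      omega
    subst h6
    have h7 : (l : ℂ) = (l' : ℂ) := by linear_combination h1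
    rw [Subtype.ext h7]
  · rintro ⟨z, hz⟩
    obtain ⟨k, hk⟩ := (hL' z).mp hz
    have hp0 : (0 : ℤ) < p := by exact_mod_cast hp.pos
    have hr0 : 0 ≤ k % (p : ℤ) := Int.emod_nonneg _ hp0.ne'
    have hr1 : k % (p : ℤ) < p := Int.emod_lt_of_pos _ hp0
    have hkd : k = (p : ℤ) * (k / p) + k % p := (Int.mul_ediv_add_emod k p).symm
    have hmem : z - ((k % (p : ℤ) : ℤ) : ℂ) * z₀ ∈ L.lattice := by
      have h1 := intCast_mul_mem_h215 L (k / p) hpz
      have h2 := L.lattice.add_mem hk h1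
      have h3 : z - (k : ℂ) * z₀ + ((k / (p : ℤ) : ℤ) : ℂ) * ((p : ℂ) * z₀) =
          z - ((k % (p : ℤ) : ℤ) : ℂ) * z₀ := by
        have : (k : ℂ) = ((p : ℤ) : ℂ) * ((k / (p : ℤ) : ℤ) : ℂ) + ((k % (p : ℤ) : ℤ) : ℂ) := by
          exact_mod_cast congrArg (Int.cast : ℤ → ℂ) hkd
        rw [this]; push_cast; ring
      rwa [h3] at h2
    refine ⟨(⟨(k % (p : ℤ)).toNat, by omega⟩, ⟨_, hmem⟩), ?_⟩
    apply Subtype.ext
    show z - ((k % (p : ℤ) : ℤ) : ℂ) * z₀ + (((k % (p : ℤ)).toNat : ℕ) : ℂ) * z₀ = z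
    have : (((k % (p : ℤ)).toNat : ℕ) : ℂ) = ((k % (p : ℤ) : ℤ) : ℂ) := by
      have h := Int.toNat_of_nonneg hr0
      exact_mod_cast congrArg (Int.cast : ℤ → ℂ) h
    rw [this]; ring

/-- Coset decomposition of the Eisenstein sums of the superlattice. -/
theorem G_superLattice_h215 (hp : p.Prime) (h0 : z₀ ∉ L.lattice)
    (hpz : (p : ℂ) * z₀ ∈ L.lattice) (hL' : IsSuperLattice L L' z₀) {n : ℕ} (hn : 2 < n) :
    L'.G n = ∑ k : Fin p, L.sumInvPow (-((k.val : ℂ) * z₀)) n := by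
  have hS' : HasSum (fun l : L'.lattice => (((l : ℂ)) ^ n)⁻¹) (L'.G n) := by
    have := L'.hasSum_sumInvPow 0 hn
    simpa using this
  have hS : HasSum (fun x : Fin p × L.lattice => ((((cosetMapH215 hL' p x : L'.lattice) : ℂ)) ^ n)⁻¹)
      (L'.G n) :=
    (Equiv.ofBijective _ (cosetMapH215_bijective hp h0 hpz hL')).hasSum_iff.mpr hS'
  have hfib : ∀ k : Fin p, HasSum
      (fun l : L.lattice => ((((cosetMapH215 hL' p (k, l) : L'.lattice) : ℂ)) ^ n)⁻¹)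
      (L.sumInvPow (-((k.val : ℂ) * z₀)) n) := by
    intro k
    have := L.hasSum_sumInvPow (-((k.val : ℂ) * z₀)) hn
    simpa [cosetMapH215, sub_neg_eq_add] using this
  have := hS.prod_fiberwise hfib
  exact this.unique (hasSum_fintype _)


/-- Abstract construction of a basis of `ℤω₁ + ℤω₂ + ℤz₀` when `p z₀ = a ω₁ + b ω₂`, `(b, p) = 1`. -/
theorem exists_basis_aux_h215 (ω₁ ω₂ z₀ : ℂ) (indep : LinearIndependent ℝ ![ω₁, ω₂]) (p : ℕ)
    (hp0 : p ≠ 0) (a b : ℤ) (h : (p : ℂ) * z₀ = a * ω₁ + b * ω₂) (hb : IsCoprime b (p : ℤ)) :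
    ∃ w : ℂ, LinearIndependent ℝ ![ω₁, w] ∧
      ∀ z : ℂ, z ∈ Submodule.span ℤ {ω₁, w} ↔
        ∃ k : ℤ, z - k * z₀ ∈ Submodule.span ℤ {ω₁, ω₂} := by
  obtain ⟨u, v, huv⟩ := hb
  have huvC : (u : ℂ) * b + v * p = 1 := by exact_mod_cast congrArg (Int.cast : ℤ → ℂ) huv
  have hpC : (p : ℂ) ≠ 0 := by exact_mod_cast hp0
  set w : ℂ := u * z₀ + v * ω₂ with hw
  have hpw : (p : ℂ) * w = u * a * ω₁ + ω₂ := by
    rw [hw]
    linear_combination (u : ℂ) * h + ω₂ * huvC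
  have hz₀ : z₀ = b * w + v * a * ω₁ := by
    rw [hw]
    linear_combination (-z₀) * huvC + (v : ℂ) * h
  refine ⟨w, ?_, ?_⟩
  · rw [LinearIndependent.pair_iff] at indep ⊢
    intro s t hst
    have hw' : w = ((u * a / p : ℝ) : ℂ) * ω₁ + ((1 / p : ℝ) : ℂ) * ω₂ := by
      push_cast
      field_simp
      linear_combination hpw
    have h1 : (s + t * (u * a / p) : ℝ) • ω₁ + (t * (1 / p) : ℝ) • ω₂ = 0 := by
      simp only [Complex.real_smul] at hst ⊢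
      rw [hw'] at hst
      push_cast at hst ⊢
      linear_combination hst
    obtain ⟨h2, h3⟩ := indep _ _ h1
    have hpR : (p : ℝ) ≠ 0 := by exact_mod_cast hp0
    have ht : t = 0 := by
      have := mul_eq_zero.mp h3
      rcases this with h | h
      · exact h
      · exfalso; exact (one_div_ne_zero hpR) h
    refine ⟨?_, ht⟩
    rw [ht] at h2
    simpa using h2
  · intro z
    simp only [Submodule.mem_span_pair, zsmul_eq_mul]
    constructor
    · rintro ⟨m, n, rfl⟩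
      refine ⟨n * u, m, n * v, ?_⟩
      rw [hw]; push_cast; ring
    · rintro ⟨k, m, n, hmn⟩
      refine ⟨k * v * a + m - n * u * a, k * b + n * p, ?_⟩
      have hz : z = k * z₀ + (m * ω₁ + n * ω₂) := by linear_combination -hmn
      rw [hz]
      push_cast
      have hω₂ : ω₂ = p * w - u * a * ω₁ := by linear_combination -hpw
      calc (↑k * ↑v * ↑a + ↑m - ↑n * ↑u * ↑a) * ω₁ + (↑k * ↑b + ↑n * ↑p) * w
          = k * (b * w + v * a * ω₁) + (m * ω₁ + n * (p * w - u * a * ω₁)) := by ring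
        _ = k * z₀ + (m * ω₁ + n * ω₂) := by rw [← hz₀, ← hω₂]


/-- `∑ (l + x)⁻ⁿ = ∑ (l - x)⁻ⁿ` for even `n`. -/
theorem sumInvPow_neg_h215 (L : PeriodPair) (x : ℂ) {n : ℕ} (hn : Even n) :
    L.sumInvPow (-x) n = L.sumInvPow x n := by
  unfold PeriodPair.sumInvPow
  rw [← (Equiv.neg L.lattice).tsum_eq]
  congr 1
  ext l
  simp only [Equiv.neg_apply, NegMemClass.coe_neg, sub_neg_eq_add]
  have : (-(l : ℂ) + x) = -((l : ℂ) - x) := by ring
  rw [this, hn.neg_pow]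

theorem natCast_mul_notMem_h215 (hp : p.Prime) (h0 : z₀ ∉ L.lattice)
    (hpz : (p : ℂ) * z₀ ∈ L.lattice) {k : ℕ} (hk : k ∈ Finset.Icc 1 (p - 1)) :
    (k : ℂ) * z₀ ∉ L.lattice := by
  intro hmem
  have h1 : ((k : ℤ) : ℂ) * z₀ ∈ L.lattice := by simpa using hmem
  have h2 := (mul_mem_lattice_iff_h215 hp h0 hpz _).mp h1
  have h3 : p ∣ k := by exact_mod_cast h2
  rw [Finset.mem_Icc] at hk
  have := Nat.le_of_dvd (by omega) h3
  have := hp.pos
  omega

/-- Coset decomposition, second form: `G_n(L') = G_n(L) + ∑_{k=1}^{p-1} ∑_l (l - k z₀)⁻ⁿ`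
for even `n > 2`. -/
theorem G_superLattice_Icc_h215 (hp : p.Prime) (h0 : z₀ ∉ L.lattice)
    (hpz : (p : ℂ) * z₀ ∈ L.lattice) (hL' : IsSuperLattice L L' z₀) {n : ℕ} (hn : 2 < n)
    (hev : Even n) :
    L'.G n = L.G n + ∑ k ∈ Finset.Icc 1 (p - 1), L.sumInvPow ((k : ℂ) * z₀) n := by
  rw [G_superLattice_h215 hp h0 hpz hL' hn]
  simp_rw [sumInvPow_neg_h215 L _ hev]
  rw [Fin.sum_univ_eq_sum_range (fun k : ℕ => L.sumInvPow ((k : ℂ) * z₀) n) p,
    Finset.range_eq_Ico, Finset.sum_eq_sum_Ico_succ_bot hp.pos]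
  have h1 : L.sumInvPow (((0 : ℕ) : ℂ) * z₀) n = L.G n := by
    rw [Nat.cast_zero, zero_mul, PeriodPair.sumInvPow_zero]
  have h2 : Finset.Ico (0 + 1) p = Finset.Icc 1 (p - 1) := by
    ext k
    have := hp.pos
    simp only [Finset.mem_Ico, Finset.mem_Icc]
    omega
  rw [h1, h2]

/-- **Vélu, lattice form, `g₂`** (for any period pair `L'` with lattice `L + ℤ z₀`). -/
theorem g₂_superLattice_h215 (hp : p.Prime) (h0 : z₀ ∉ L.lattice)
    (hpz : (p : ℂ) * z₀ ∈ L.lattice) (hL' : IsSuperLattice L L' z₀) :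
    L'.g₂ = L.g₂ + 10 * ∑ k ∈ Finset.Icc 1 (p - 1),
      (6 * L.weierstrassP (k * z₀) ^ 2 - L.g₂ / 2) := by
  have hG := G_superLattice_Icc_h215 hp h0 hpz hL' (n := 4) (by norm_num) (by decide)
  have hsum : ∑ k ∈ Finset.Icc 1 (p - 1), (6 * L.weierstrassP (k * z₀) ^ 2 - L.g₂ / 2) =
      6 * ∑ k ∈ Finset.Icc 1 (p - 1), L.sumInvPow ((k : ℂ) * z₀) 4 := by
    rw [Finset.mul_sum]
    refine Finset.sum_congr rfl fun k hk => ?_
    exact (six_mul_sumInvPow_four_h215 L _ (natCast_mul_notMem_h215 hp h0 hpz hk)).symm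
  rw [hsum]
  unfold PeriodPair.g₂
  rw [hG]
  ring

/-- **Vélu, lattice form, `g₃`** (for any period pair `L'` with lattice `L + ℤ z₀`). -/
theorem g₃_superLattice_h215 (hp : p.Prime) (h0 : z₀ ∉ L.lattice)
    (hpz : (p : ℂ) * z₀ ∈ L.lattice) (hL' : IsSuperLattice L L' z₀) :
    L'.g₃ = L.g₃ + 7 / 6 * ∑ k ∈ Finset.Icc 1 (p - 1),
      (120 * L.weierstrassP (k * z₀) ^ 3 - 18 * L.g₂ * L.weierstrassP (k * z₀) - 12 * L.g₃) := by
  have hG := G_superLattice_Icc_h215 hp h0 hpz hL' (n := 6) (by norm_num) (by decide)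
  have hsum : ∑ k ∈ Finset.Icc 1 (p - 1),
      (120 * L.weierstrassP (k * z₀) ^ 3 - 18 * L.g₂ * L.weierstrassP (k * z₀) - 12 * L.g₃) =
      120 * ∑ k ∈ Finset.Icc 1 (p - 1), L.sumInvPow ((k : ℂ) * z₀) 6 := by
    rw [Finset.mul_sum]
    refine Finset.sum_congr rfl fun k hk => ?_
    exact (mul_sumInvPow_six_h215 L _ (natCast_mul_notMem_h215 hp h0 hpz hk)).symm
  rw [hsum]
  unfold PeriodPair.g₃
  rw [hG]
  ring

/-- Existence of a period pair with lattice `L + ℤ z₀`. -/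
theorem exists_superLattice_h215 (L : PeriodPair) (hp : p.Prime) (h0 : z₀ ∉ L.lattice)
    (hpz : (p : ℂ) * z₀ ∈ L.lattice) : ∃ L' : PeriodPair, IsSuperLattice L L' z₀ := by
  obtain ⟨a, b, hab⟩ := PeriodPair.mem_lattice.mp hpz
  by_cases hb : (p : ℤ) ∣ b
  · -- then `p ∤ a`
    have ha : ¬ (p : ℤ) ∣ a := by
      rintro ⟨a', rfl⟩
      obtain ⟨b', rfl⟩ := hb
      apply h0
      rw [PeriodPair.mem_lattice]
      refine ⟨a', b', ?_⟩
      have hpC : (p : ℂ) ≠ 0 := by exact_mod_cast hp.ne_zero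
      apply mul_left_cancel₀ hpC
      rw [← hab]; push_cast; ring
    have hcop : IsCoprime a (p : ℤ) :=
      ((Nat.prime_iff_prime_int.mp hp).coprime_iff_not_dvd.mpr ha).symm
    have hindep : LinearIndependent ℝ ![L.ω₂, L.ω₁] := by
      have h := L.indep
      rw [LinearIndependent.pair_iff] at h ⊢
      intro s t hst
      have := h t s (by rw [← hst]; ring)
      exact ⟨this.2, this.1⟩
    obtain ⟨w, hw, hspan⟩ := exists_basis_aux_h215 L.ω₂ L.ω₁ z₀ hindep p hp.ne_zero b a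
      (by rw [← hab]; ring) hcop
    refine ⟨⟨L.ω₂, w, hw⟩, fun z => ?_⟩
    show z ∈ Submodule.span ℤ {L.ω₂, w} ↔ ∃ k : ℤ, z - k * z₀ ∈ Submodule.span ℤ {L.ω₁, L.ω₂}
    rw [hspan z, Set.pair_comm L.ω₂ L.ω₁]
  · have hcop : IsCoprime b (p : ℤ) :=
      ((Nat.prime_iff_prime_int.mp hp).coprime_iff_not_dvd.mpr hb).symm
    obtain ⟨w, hw, hspan⟩ := exists_basis_aux_h215 L.ω₁ L.ω₂ z₀ L.indep p hp.ne_zero a b
      hab.symm hcop
    refine ⟨⟨L.ω₁, w, hw⟩, fun z => ?_⟩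
    show z ∈ Submodule.span ℤ {L.ω₁, w} ↔ ∃ k : ℤ, z - k * z₀ ∈ Submodule.span ℤ {L.ω₁, L.ω₂}
    exact hspan z

/-- **MOD-B4.**  The lattice form of Vélu's formulas. -/
theorem latticeVelu : LatticeVeluStatement := by
  intro L p hp _ z₀ h0 hpz
  obtain ⟨L', hL'⟩ := exists_superLattice_h215 L hp h0 hpz
  exact ⟨L', hL', g₂_superLattice_h215 hp h0 hpz hL', g₃_superLattice_h215 hp h0 hpz hL'⟩

end Fermat.Agent.S15.H215
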