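import Fermat.Agent.S15.H215.ModBFinal
import Fermat.Agent.S15.H902.Uniformization

/-!
# S15, piece MOD-B (helper215): the bridge MOD-B, unconditional

* `veluModularPairComplex : VeluModularPairComplexStatement`
* `veluModularPair : VeluModularPairStatement`

Assembly of B0, B0', B2, B4, B5 + glue (helper215, this directory) with B3
(`Fermat.Agent.S15.H902.uniformization`, helper902, using helper226's addition theorem).
-/

set_option autoImplicit false

namespace Fermat.Agent.S15.H215

open Fermat.Agent.S15.H542

/-- **B-ℂ.**  The bridge over `ℂ`. -/
theorem veluModularPairComplex : VeluModularPairComplexStatement :=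
  veluModularPairComplex_of_uniformization Fermat.Agent.S15.H902.uniformization

/-- **MOD-B.**  If `Q` has exact odd prime order `p` on the elliptic curve `E` over `ℚ̄`, then
Vélu's curve is nonsingular and `(j(E), j(E/⟨Q⟩))` lies on the plane model of `X₀(p)`. -/
theorem veluModularPair : VeluModularPairStatement :=
  veluModularPair_of_uniformization Fermat.Agent.S15.H902.uniformization

end Fermat.Agent.S15.H215
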