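import Fermat.Agent.S15.H215.ModBTop
import Fermat.Agent.S15.H215.LatticeModular

/-!
# S15, piece MOD-B (helper215): MOD-B from the uniformisation statement alone

B0, B0', B2, B4, B5 and the glue are proved in this directory, so the bridge MOD-B is reduced to
the single statement B3 (`UniformizationStatement`).

* `veluModularPairComplex_of_uniformization :
    UniformizationStatement → VeluModularPairComplexStatement`
* `veluModularPair_of_uniformization : UniformizationStatement → VeluModularPairStatement`
-/

set_option autoImplicit false

namespace Fermat.Agent.S15.H215

open Fermat.Agent.S15.H542

/-- **B-ℂ from B3.** -/
theorem veluModularPairComplex_of_uniformization (h3 : UniformizationStatement) :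
    VeluModularPairComplexStatement :=
  veluModularPairComplex_of h3 latticeModularPair

/-- **MOD-B from B3.** -/
theorem veluModularPair_of_uniformization (h3 : UniformizationStatement) :
    VeluModularPairStatement :=
  veluModularPair_of_pieces h3 latticeModularPair

end Fermat.Agent.S15.H215
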