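import Fermat.Agent.S15.H542.ModBSpec

/-!
# S15, piece MOD-B0 / MOD-B0' (helper215): Vélu's curve and `IsModularPair` under field embeddings

* `veluMap : VeluMapStatement`
* `isModularPairMap : IsModularPairMapStatement`
(exact types of `Fermat/Agent/S15/H542/ModBSpec.lean`).
-/

set_option autoImplicit false

noncomputable section

open WeierstrassCurve
open scoped WeierstrassCurve.Affine

namespace Fermat.Agent.S15.H215

open Fermat.Agent.S15.H542

section Velu

variable {K L : Type} [Field K] [Field L] [DecidableEq K] [DecidableEq L] [Algebra K L]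

theorem xOf_map_h215 (W : WeierstrassCurve K) (P : W.toAffine.Point) :
    xOf (WeierstrassCurve.Affine.Point.map (W' := W) (Algebra.ofId K L) P) =
      algebraMap K L (xOf P) := by
  cases P with
  | zero => simp [xOf]; rfl
  | some x y h => rfl

theorem yOf_map_h215 (W : WeierstrassCurve K) (P : W.toAffine.Point) :
    yOf (WeierstrassCurve.Affine.Point.map (W' := W) (Algebra.ofId K L) P) =
      algebraMap K L (yOf P) := by
  cases P with
  | zero => simp [yOf]; rfl
  | some x y h => rfl

theorem veluT1_map_h215 (W : WeierstrassCurve K) (x : K) :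
    veluT1 (W⁄L) (algebraMap K L x) = algebraMap K L (veluT1 W x) := by
  simp [veluT1, WeierstrassCurve.baseChange, map_ofNat]

theorem veluU1_map_h215 (W : WeierstrassCurve K) (x : K) :
    veluU1 (W⁄L) (algebraMap K L x) = algebraMap K L (veluU1 W x) := by
  simp [veluU1, WeierstrassCurve.baseChange, map_ofNat]

theorem nsmul_map_h215 (W : WeierstrassCurve K) (Q : W.toAffine.Point) (k : ℕ) :
    k • WeierstrassCurve.Affine.Point.map (W' := W) (Algebra.ofId K L) Q =
      WeierstrassCurve.Affine.Point.map (W' := W) (Algebra.ofId K L) (k • Q) :=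
  (map_nsmul (WeierstrassCurve.Affine.Point.map (W' := W) (Algebra.ofId K L)) k Q).symm

theorem xOf_nsmul_map_h215 (W : WeierstrassCurve K) (Q : W.toAffine.Point) (k : ℕ) :
    xOf (k • WeierstrassCurve.Affine.Point.map (W' := W) (Algebra.ofId K L) Q) =
      algebraMap K L (xOf (k • Q)) := by
  rw [nsmul_map_h215, xOf_map_h215]

theorem veluT_map_h215 (W : WeierstrassCurve K) (Q : W.toAffine.Point) (p : ℕ) :
    veluT (W⁄L) (WeierstrassCurve.Affine.Point.map (W' := W) (Algebra.ofId K L) Q) p =
      algebraMap K L (veluT W Q p) := by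
  unfold veluT
  rw [map_sum]
  refine Finset.sum_congr rfl fun k _ => ?_
  rw [xOf_nsmul_map_h215, veluT1_map_h215]

theorem veluW_map_h215 (W : WeierstrassCurve K) (Q : W.toAffine.Point) (p : ℕ) :
    veluW (W⁄L) (WeierstrassCurve.Affine.Point.map (W' := W) (Algebra.ofId K L) Q) p =
      algebraMap K L (veluW W Q p) := by
  unfold veluW
  rw [map_sum]
  refine Finset.sum_congr rfl fun k _ => ?_
  rw [xOf_nsmul_map_h215, veluT1_map_h215, veluU1_map_h215, map_add, map_mul]

end Velu

/-- **B0.**  Vélu's curve commutes with field embeddings. -/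
theorem veluMap : VeluMapStatement := by
  intro K L _ _ _ _ _ W Q p
  ext
  · rfl
  · rfl
  · rfl
  · show (W⁄L).a₄ - 5 * veluT (W⁄L) _ p = algebraMap K L (W.a₄ - 5 * veluT W Q p)
    rw [veluT_map_h215]
    simp [WeierstrassCurve.baseChange, map_ofNat]
  · show (W⁄L).a₆ - (W⁄L).b₂ * veluT (W⁄L) _ p - 7 * veluW (W⁄L) _ p =
      algebraMap K L (W.a₆ - W.b₂ * veluT W Q p - 7 * veluW W Q p)
    rw [veluT_map_h215, veluW_map_h215]
    simp [WeierstrassCurve.baseChange, map_ofNat]

/-- **B0'.**  `IsModularPair` only depends on the pair up to field embeddings. -/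
theorem isModularPairMap : IsModularPairMapStatement := by
  intro K L _ _ _ _ f N _ a a'
  have hcomm : ∀ r : ℚ, f (algebraMap ℚ K r) = algebraMap ℚ L r := fun r => by
    simp
  have key : ∀ G : MvPolynomial (Fin 2) ℚ,
      MvPolynomial.aeval ![f a, f a'] G = f (MvPolynomial.aeval ![a, a'] G) := by
    intro G
    induction G using MvPolynomial.induction_on with
    | C r => simp
    | add p q hp hq => simp only [map_add, hp, hq]
    | mul_X p i hp =>
      simp only [map_mul, hp, MvPolynomial.aeval_X]
      congr 1
      fin_cases i <;> simp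
  unfold IsModularPair
  constructor
  · intro h G hG
    have := h G hG
    rw [key] at this
    exact (map_eq_zero f).mp this
  · intro h G hG
    rw [key, h G hG, map_zero]

end Fermat.Agent.S15.H215
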