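import Fermat.Agent.S15.H542.ModBSpec
import Fermat.Agent.S15.H215.LatticeVelu
import Fermat.Agent.S15.H215.ModBMap

/-!
# S15, piece MOD-B-ℂ (helper215): the bridge over `ℂ` from uniformisation + lattice statements

* `veluModularPairComplex_of :
    UniformizationStatement → LatticeModularPairStatement → VeluModularPairComplexStatement`
  (B4 = `latticeVelu` is used in its strong form `g₂_superLattice_h215`, `g₃_superLattice_h215`).

Algebra: with `x_k = ℘(k z₀) - b₂/12`, `g₂ = c₄/12`, `g₃ = c₆/216`,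
`6 ℘² - g₂/2 = 6 x² + b₂ x + b₄` and
`120 ℘³ - 18 g₂ ℘ - 12 g₃ = b₂ (6 x² + b₂ x + b₄) + 12 (10 x³ + 2 b₂ x² + 3 b₄ x + b₆)`, hence
`c₄(E') = 12 g₂(Λ')`, `c₆(E') = 216 g₃(Λ')` for Vélu's curve `E'`.
-/

set_option autoImplicit false

noncomputable section

open WeierstrassCurve
open scoped WeierstrassCurve.Affine

namespace Fermat.Agent.S15.H215

open Fermat.Agent.S15.H542

/-- Folding a symmetric sum: `∑_{k=1}^{2m} g k = 2 ∑_{k=1}^{m} g k` if `g (2m+1-k) = g k`. -/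
theorem sum_Icc_fold_h215 (m : ℕ) (g : ℕ → ℂ)
    (hg : ∀ k ∈ Finset.Icc 1 m, g (2 * m + 1 - k) = g k) :
    ∑ k ∈ Finset.Icc 1 (2 * m), g k = 2 * ∑ k ∈ Finset.Icc 1 m, g k := by
  have e1 : Finset.Icc 1 (2 * m) = Finset.Ico 1 (2 * m + 1) := by
    ext k; simp only [Finset.mem_Icc, Finset.mem_Ico]; omega
  have e2 : Finset.Icc 1 m = Finset.Ico 1 (m + 1) := by
    ext k; simp only [Finset.mem_Icc, Finset.mem_Ico]; omega
  have h1 : ∑ k ∈ Finset.Ico 1 (2 * m + 1), g k =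
      ∑ k ∈ Finset.Ico 1 (m + 1), g k + ∑ k ∈ Finset.Ico (m + 1) (2 * m + 1), g k :=
    (Finset.sum_Ico_consecutive g (by omega) (by omega)).symm
  have h2 := Finset.sum_Ico_reflect g 1 (m := m + 1) (n := 2 * m + 1) (by omega)
  have e3 : 2 * m + 1 + 1 - (m + 1) = m + 1 := by omega
  have e4 : 2 * m + 1 + 1 - 1 = 2 * m + 1 := by omega
  rw [e3, e4] at h2
  have h3 : ∑ j ∈ Finset.Ico 1 (m + 1), g (2 * m + 1 - j) = ∑ j ∈ Finset.Ico 1 (m + 1), g j := by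
    refine Finset.sum_congr rfl fun k hk => ?_
    exact hg k (by rw [e2]; exact hk)
  rw [e1, h1, ← h2, h3, ← e2]
  ring

/-- `℘((p - k) z₀) = ℘(k z₀)` if `p z₀` is a period. -/
theorem weierstrassP_reflect_h215 (L : PeriodPair) {z₀ : ℂ} {p : ℕ}
    (hpz : (p : ℂ) * z₀ ∈ L.lattice) {k : ℕ} (hk : k ≤ p) :
    L.weierstrassP (((p - k : ℕ) : ℂ) * z₀) = L.weierstrassP ((k : ℂ) * z₀) := by
  have h1 : ((p - k : ℕ) : ℂ) * z₀ = -((k : ℂ) * z₀) + ((⟨_, hpz⟩ : L.lattice) : ℂ) := by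
    rw [Nat.cast_sub hk]; ring
  rw [h1, L.weierstrassP_add_coe, L.weierstrassP_neg]

/-- **B-ℂ from B3 and B5.** -/
theorem veluModularPairComplex_of (h3 : UniformizationStatement)
    (h5 : LatticeModularPairStatement) : VeluModularPairComplexStatement := by
  intro _ p _ hp hp2 E hΔ Q hQord
  obtain ⟨U⟩ := h3 E hΔ
  obtain ⟨z₀, rfl⟩ := U.φ_surjective Q
  -- `z₀ ∉ Λ`, `p z₀ ∈ Λ`
  have h0 : z₀ ∉ U.L.lattice := by
    intro hz
    have : U.φ z₀ = 0 := (U.φ_eq_zero_iff z₀).mpr hz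
    rw [this, addOrderOf_zero] at hQord
    exact hp.one_lt.ne hQord
  have hpz : (p : ℂ) * z₀ ∈ U.L.lattice := by
    rw [← U.φ_eq_zero_iff]
    have h1 : U.φ ((p : ℂ) * z₀) = p • U.φ z₀ := by
      rw [← nsmul_eq_mul, map_nsmul]
    rw [h1, ← hQord]
    exact addOrderOf_nsmul_eq_zero _
  obtain ⟨L', hL'⟩ := exists_superLattice_h215 U.L hp h0 hpz
  have hg2 := g₂_superLattice_h215 hp h0 hpz hL'
  have hg3 := g₃_superLattice_h215 hp h0 hpz hL'
  obtain ⟨hΔL, hΔL', hmod⟩ := h5 p hp U.L L' z₀ h0 hpz hL'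
  -- `p = 2 m + 1`
  obtain ⟨m, hm⟩ : ∃ m, p = 2 * m + 1 := by
    rcases hp.eq_two_or_odd' with h | h
    · exact absurd h hp2
    · exact h
  have hm2 : (p - 1) / 2 = m := by omega
  have hm1 : p - 1 = 2 * m := by omega
  -- `x`-coordinates of the multiples
  have hx : ∀ k ∈ Finset.Icc 1 m,
      xOf (k • U.φ z₀) = U.L.weierstrassP ((k : ℂ) * z₀) - E.b₂ / 12 := by
    intro k hk
    have hk' : k ∈ Finset.Icc 1 (p - 1) := by
      rw [Finset.mem_Icc] at hk ⊢; omega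
    have hnot := natCast_mul_notMem_h215 hp h0 hpz hk'
    have h1 : k • U.φ z₀ = U.φ ((k : ℂ) * z₀) := by
      rw [← nsmul_eq_mul, map_nsmul]
    rw [h1, U.xOf_φ _ hnot]
  -- folding the sums
  have hfold2 : ∑ k ∈ Finset.Icc 1 (p - 1),
      (6 * U.L.weierstrassP (k * z₀) ^ 2 - U.L.g₂ / 2) =
      2 * ∑ k ∈ Finset.Icc 1 m, (6 * U.L.weierstrassP (k * z₀) ^ 2 - U.L.g₂ / 2) := by
    rw [hm1]
    refine sum_Icc_fold_h215 m
      (fun k => 6 * U.L.weierstrassP ((k : ℂ) * z₀) ^ 2 - U.L.g₂ / 2) fun k hk => ?_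
    have hkp : k ≤ p := by rw [Finset.mem_Icc] at hk; omega
    have := weierstrassP_reflect_h215 U.L hpz hkp
    rw [hm] at this
    simp only [this]
  have hfold3 : ∑ k ∈ Finset.Icc 1 (p - 1),
      (120 * U.L.weierstrassP (k * z₀) ^ 3 - 18 * U.L.g₂ * U.L.weierstrassP (k * z₀) -
        12 * U.L.g₃) =
      2 * ∑ k ∈ Finset.Icc 1 m,
        (120 * U.L.weierstrassP (k * z₀) ^ 3 - 18 * U.L.g₂ * U.L.weierstrassP (k * z₀) -
          12 * U.L.g₃) := by
    rw [hm1]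
    refine sum_Icc_fold_h215 m
      (fun k => 120 * U.L.weierstrassP ((k : ℂ) * z₀) ^ 3 -
        18 * U.L.g₂ * U.L.weierstrassP ((k : ℂ) * z₀) - 12 * U.L.g₃) fun k hk => ?_
    have hkp : k ≤ p := by rw [Finset.mem_Icc] at hk; omega
    have := weierstrassP_reflect_h215 U.L hpz hkp
    rw [hm] at this
    simp only [this]
  -- Vélu's sums in terms of `℘`
  have hT : veluT E (U.φ z₀) p =
      ∑ k ∈ Finset.Icc 1 m, (6 * U.L.weierstrassP (k * z₀) ^ 2 - U.L.g₂ / 2) := by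
    unfold veluT
    rw [hm2]
    refine Finset.sum_congr rfl fun k hk => ?_
    rw [hx k hk, U.g₂_eq]
    simp only [veluT1, WeierstrassCurve.c₄]
    ring
  have hW : E.b₂ * veluT E (U.φ z₀) p + 12 * veluW E (U.φ z₀) p =
      ∑ k ∈ Finset.Icc 1 m,
        (120 * U.L.weierstrassP (k * z₀) ^ 3 - 18 * U.L.g₂ * U.L.weierstrassP (k * z₀) -
          12 * U.L.g₃) := by
    unfold veluT veluW
    rw [hm2, Finset.mul_sum, Finset.mul_sum, ← Finset.sum_add_distrib]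
    refine Finset.sum_congr rfl fun k hk => ?_
    rw [hx k hk, U.g₂_eq, U.g₃_eq]
    simp only [veluT1, veluU1, WeierstrassCurve.c₄, WeierstrassCurve.c₆]
    ring
  -- invariants of Vélu's curve
  have hc4 : (veluCurve E (U.φ z₀) p).c₄ = 12 * L'.g₂ := by
    rw [hg2, hfold2, ← hT, U.g₂_eq]
    simp only [veluCurve, WeierstrassCurve.c₄, WeierstrassCurve.b₂, WeierstrassCurve.b₄]
    ring
  have hc6 : (veluCurve E (U.φ z₀) p).c₆ = 216 * L'.g₃ := by
    rw [hg3, hfold3, ← hW, U.g₃_eq]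
    simp only [veluCurve, WeierstrassCurve.c₆, WeierstrassCurve.b₂, WeierstrassCurve.b₄,
      WeierstrassCurve.b₆]
    ring
  have hΔ' : (veluCurve E (U.φ z₀) p).Δ = L'.g₂ ^ 3 - 27 * L'.g₃ ^ 2 := by
    have := (veluCurve E (U.φ z₀) p).c_relation
    rw [hc4, hc6] at this
    linear_combination (1 / 1728 : ℂ) * this
  have hΔE : E.Δ = U.L.g₂ ^ 3 - 27 * U.L.g₃ ^ 2 := by
    have := E.c_relation
    rw [U.g₂_eq, U.g₃_eq]
    linear_combination (1 / 1728 : ℂ) * this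
  refine ⟨by rw [hΔ']; exact hΔL', ?_⟩
  have hj : jInv E = latticeJ U.L := by
    unfold jInv latticeJ
    rw [hΔE, U.g₂_eq]
    ring
  have hj' : jInv (veluCurve E (U.φ z₀) p) = latticeJ L' := by
    unfold jInv latticeJ
    rw [hΔ', hc4]
    ring
  rw [hj, hj']
  exact hmod

end Fermat.Agent.S15.H215
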