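import Fermat.Agent.S15.H542.ModBSpec
import Fermat.Agent.S15.H215.ModBGlue

/-!
# S15, piece MOD-B (helper215): descent of the bridge from `ℂ` to `ℚ̄`

* `veluModularPair_of : VeluModularPairComplexStatement → VeluModularPairStatement`
* `veluModularPair_of_pieces :
    UniformizationStatement → LatticeModularPairStatement → VeluModularPairStatement`

(B0 = `veluMap`, B0' = `isModularPairMap`, B4 = `latticeVelu` are proved in this directory.)
-/

set_option autoImplicit false

noncomputable section

open WeierstrassCurve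
open scoped WeierstrassCurve.Affine

namespace Fermat.Agent.S15.H215

open Fermat.Agent.S15.H542

theorem jInv_map_h215 {K L : Type} [Field K] [Field L] (W : WeierstrassCurve K) (f : K →+* L) :
    jInv (W.map f) = f (jInv W) := by
  unfold jInv
  rw [WeierstrassCurve.map_c₄, WeierstrassCurve.map_Δ, map_div₀, map_pow]

/-- **B from B-ℂ** (via B0, B0'). -/
theorem veluModularPair_of (hC : VeluModularPairComplexStatement) : VeluModularPairStatement := by
  intro p _ hp hp2 E hΔ Q hQord
  haveI : Algebra.IsAlgebraic ℚ (AlgebraicClosure ℚ) := AlgebraicClosure.isAlgebraic ℚ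
  let ι : AlgebraicClosure ℚ →ₐ[ℚ] ℂ := IsAlgClosed.lift
  letI : Algebra (AlgebraicClosure ℚ) ℂ := ι.toRingHom.toAlgebra
  have hmap := veluMap (K := AlgebraicClosure ℚ) (L := ℂ) E Q p
  have hord : addOrderOf
      (WeierstrassCurve.Affine.Point.map (W' := E) (Algebra.ofId (AlgebraicClosure ℚ) ℂ) Q) = p := by
    rw [← hQord]
    exact addOrderOf_injective
      (WeierstrassCurve.Affine.Point.map (W' := E) (Algebra.ofId (AlgebraicClosure ℚ) ℂ))
      (WeierstrassCurve.Affine.Point.map_injective _) Q
  have hinj : Function.Injective (algebraMap (AlgebraicClosure ℚ) ℂ) :=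
    (algebraMap (AlgebraicClosure ℚ) ℂ).injective
  have hΔ' : (E⁄ℂ).Δ ≠ 0 := by
    show (E.map (algebraMap (AlgebraicClosure ℚ) ℂ)).Δ ≠ 0
    rw [WeierstrassCurve.map_Δ]
    exact (map_ne_zero_iff _ hinj).mpr hΔ
  obtain ⟨h1, h2⟩ := hC p hp hp2 (E⁄ℂ) hΔ' _ hord
  rw [hmap] at h1 h2
  constructor
  · intro h
    apply h1
    rw [WeierstrassCurve.map_Δ, h, map_zero]
  · have hj : jInv (E⁄ℂ) = algebraMap (AlgebraicClosure ℚ) ℂ (jInv E) :=
      jInv_map_h215 E _
    rw [hj, jInv_map_h215] at h2
    exact (isModularPairMap (algebraMap (AlgebraicClosure ℚ) ℂ) p _ _).mp h2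

/-- **B from B3 and B5.** -/
theorem veluModularPair_of_pieces (h3 : UniformizationStatement)
    (h5 : LatticeModularPairStatement) : VeluModularPairStatement :=
  veluModularPair_of (veluModularPairComplex_of h3 h5)

end Fermat.Agent.S15.H215
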